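import Fermat.Agent.Lifting.ResidualData
import Fermat.Agent.FreyModel.Basic
import Fermat.Prelude.Def_FLTPrelim_FreyPackage

/-!
# The residual representation of the Frey curve

For a Frey package `(a, b, c, p)`, the torsion `E[p]` of the integral model is ramified exactly
at `2` away from `p`.
-/

set_option autoImplicit false

noncomputable section

namespace Fermat.Agent.LevelLowering.Residual

variable (P : FreyPackage)

theorem padicValInt_pow' (q : ℕ) [Fact q.Prime] (x : ℤ) (n : ℕ) :
    padicValInt q (x ^ n) = n * padicValInt q x := by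
  rw [padicValInt, Int.natAbs_pow, padicValNat.pow]
  rfl

/-- `v_q(256 Δ) = 2 p v_q(abc)`. -/
theorem padicValInt_freyΔ (q : ℕ) [Fact q.Prime] :
    padicValInt q 256 + padicValInt q P.freyCurveInt.Δ =
      2 * (P.p * padicValInt q (P.a * P.b * P.c)) := by
  rw [← padicValInt.mul (by norm_num) (FreyModel.freyCurveInt_Δ_ne_zero P),
    FreyModel.freyCurveInt_Δ, padicValInt_pow', padicValInt_pow']

/-- The Frey curve is ramified exactly at `2` away from `p`. -/
theorem ramifiedPrimes_frey : Lifting.ramifiedPrimes P.freyCurveInt P.p = {2} := by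
  have hΔ := FreyModel.freyCurveInt_Δ_ne_zero P
  have h5 := P.hp5
  ext q
  rw [Lifting.mem_ramifiedPrimes P.freyCurveInt P.p (hΔ := hΔ), Finset.mem_singleton]
  constructor
  · rintro ⟨hq, -, -, hv⟩
    have := Fact.mk hq
    by_contra h2
    refine hv ⟨2 * padicValInt q (P.a * P.b * P.c), ?_⟩
    have h := padicValInt_freyΔ P q
    rw [padicValInt.eq_zero_of_not_dvd, zero_add] at h
    · rw [h]; ring
    · intro hd
      have h8 : q ∣ 2 ^ 8 := by norm_num; exact_mod_cast hd
      exact h2 ((Nat.prime_dvd_prime_iff_eq hq Nat.prime_two).mp (hq.dvd_of_dvd_pow h8))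
  · rintro rfl
    refine ⟨Nat.prime_two, by omega, by exact_mod_cast FreyModel.two_dvd_freyCurveInt_Δ P, fun hv => ?_⟩
    have := Fact.mk Nat.prime_two
    have h := padicValInt_freyΔ P 2
    have h256 : padicValInt 2 256 = 8 := by
      rw [show (256 : ℤ) = 2 ^ 8 by norm_num, padicValInt_pow']
      simp [padicValInt]
    rw [h256] at h
    have h8 : P.p ∣ 2 ^ 3 := by
      have : P.p ∣ 8 + padicValInt 2 P.freyCurveInt.Δ := ⟨2 * padicValInt 2 (P.a * P.b * P.c), by rw [h]; ring⟩
      exact (Nat.dvd_add_left hv).mp this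
    have := (Nat.prime_dvd_prime_iff_eq P.pp Nat.prime_two).mp (P.pp.dvd_of_dvd_pow h8)
    omega

/-- Irreducibility of `E[p]` for the integral Frey model. -/
theorem modRepIsIrreducible_of_irreducible
    (hirr : WeierstrassCurve.Affine.Point.GaloisRepIsIrreducible (K := AlgebraicClosure ℚ) ℚ
      P.freyCurve P.p) : P.freyCurveInt.ModRepIsIrreducible P.p := by
  rw [← FreyModel.map_freyCurveInt] at hirr
  exact hirr

end Fermat.Agent.LevelLowering.Residual
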