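import Fermat.Agent.LevelLowering.Residual.IndexTwo
import Fermat.Agent.TWAssembly.BaseChange
import Fermat.Prelude.Def_GaloisRep_DeformationRingData

/-!
# The residual setup of level lowering for a semistable curve

`ResidualSetup W p O` bundles what is assumed on the curve and the coefficient ring; the residual
representation, its ramification, and the existence of the flat and strict deformation rings follow.
Flatness of the residual representation descends from any adic lift which is flat at `p`.
-/

set_option autoImplicit false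

noncomputable section

open Polynomial IsLocalRing GaloisRep
open scoped TensorProduct
open Fermat.Agent.GaloisBasics (GalQ)

namespace Fermat.Agent.LevelLowering.Residual

section Descent

variable {p : ℕ} {A : Type} [CommRing A] [IsLocalRing A]

/-- The residual representation is the base change to the residue field. -/
theorem ofResidual_residual_isEquiv (ρ : GaloisRepAdic A) (hf : IsLocalHom (residue A)) :
    (ρ.baseChangeAlong (residue A) hf).IsEquiv (GaloisRepAdic.ofResidualGaloisRep ρ.residual) := by
  exact ⟨⟨LinearEquiv.refl _ _, fun _ _ => rfl⟩⟩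

variable {k : Type} [Field k] [Finite k]

/-- Flatness of an adic representation gives flatness of every residual form of it over a finite
subfield. -/
theorem residual_isFlatAt_of_adic (ρbar : ResidualGaloisRep k) (ρ : GaloisRepAdic A)
    (φ : k →+* ResidueField A) (e : ρ.residual.IsEquiv (ρbar.baseChangeAlong φ))
    (h : ρ.IsFlatAt p) : (GaloisRepAdic.ofResidualGaloisRep ρbar).IsFlatAt p := by
  have hfin : Finite (ResidueField A) := h.1
  have hf : IsLocalHom (residue A) := .of_surjective _ residue_surjective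
  have h1 := DefCond.flat_iso (ofResidual_residual_isEquiv ρ hf)
    (TWAssembly.isFlatAt_baseChange (residue A) hf residue_surjective h)
  have hφ : IsLocalHom φ :=
    ⟨fun a ha => isUnit_iff_ne_zero.mpr fun h0 => ha.ne_zero (by rw [h0, map_zero])⟩
  obtain ⟨e⟩ := e
  have h2 : ((GaloisRepAdic.ofResidualGaloisRep ρbar).baseChangeAlong φ hφ).IsFlatAt p :=
    DefCond.flat_iso (ρ' := (GaloisRepAdic.ofResidualGaloisRep ρbar).baseChangeAlong φ hφ)
      ⟨⟨e.toLinearEquiv, e.map_apply⟩⟩ h1
  exact DefCond.flat_refl φ hφ φ hφ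
    (fun x hx _ => φ.injective (hx.trans (map_zero φ).symm)) h2 h2

end Descent

/-- The hypotheses of level lowering at an odd prime `p` for a semistable curve, with coefficient
ring `O`: irreducibility, and a residue field containing `𝔽_{p²}`. -/
structure ResidualSetup (W : WeierstrassCurve ℤ) (p : ℕ) [Fact p.Prime]
    (O : Type) [CommRing O] [IsLocalRing O] [Algebra (ZMod p) (ResidueField O)] : Prop where
  Δ_ne_zero : W.Δ ≠ 0
  semistable : W.IsSemistableModel
  ne_two : p ≠ 2
  irreducible : W.ModRepIsIrreducible p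
  ringHom : Nonempty (GaloisField p 2 →+* ResidueField O)

namespace ResidualSetup

variable {W : WeierstrassCurve ℤ} {p : ℕ} [Fact p.Prime] {O : Type} [CommRing O]

section Local

variable [IsLocalRing O] [Algebra (ZMod p) (ResidueField O)] (X₀ : ResidualSetup W p O)

/-- The residual representation. -/
abbrev rhobar : ResidualGaloisRep (ResidueField O) :=
  Lifting.residualOver W X₀.Δ_ne_zero p (ResidueField O)

/-- A basis of the residual representation. -/
def basis : Module.Basis (Fin 2) (ResidueField O) X₀.rhobar.V := TWHyp.basisOf X₀.rhobar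

include X₀ in
/-- `E[p]` satisfies the residual hypotheses of Taylor and Wiles. -/
theorem isTWResidual : TWHyp.IsTWResidual p (TWHyp.residualRep W X₀.Δ_ne_zero p) :=
  TWHyp.isTWResidual_residualRep W X₀.Δ_ne_zero X₀.semistable X₀.irreducible

/-- The residual representation is absolutely irreducible. -/
theorem absIrr : X₀.rhobar.IsAbsolutelyIrreducible :=
  TWHyp.isAbsolutelyIrreducible_baseChange _ X₀.ne_two X₀.isTWResidual

/-- Its determinant is the cyclotomic character. -/
theorem detIsCyclotomic :
    (GaloisRepAdic.ofResidualGaloisRep X₀.rhobar).DetIsCyclotomic p :=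
  TWHyp.detIsCyclotomic_baseChange _ X₀.isTWResidual

/-- Its characteristic polynomials split over the residue field. -/
theorem charpoly_split (σ : GalQ) :
    ∃ α β : ResidueField O, LinearMap.charpoly (X₀.rhobar.ρ σ) = (X - C α) * (X - C β) :=
  Lifting.charpoly_split_of_ringHom p (ResidueField O) X₀.ne_two X₀.ringHom.some _ σ

/-- It stays irreducible on every subgroup of index two, over any extension of the residue field. -/
theorem hTW (K : Type) [Field K] [Algebra (ResidueField O) K] (G : Subgroup GalQ)
    (hG : G.index = 2) (V : Submodule K (X₀.rhobar.baseChange K).V)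
    (hV : ∀ σ ∈ G, ∀ x ∈ V, (X₀.rhobar.baseChange K).ρ σ x ∈ V) : V = ⊥ ∨ V = ⊤ :=
  eq_bot_or_top_of_index_two W X₀.Δ_ne_zero p X₀.ne_two X₀.semistable X₀.irreducible
    (ResidueField O) K G hG V hV

/-- Inertia at a prime `q ≠ p` acts unipotently. -/
theorem unipotent {q : ℕ} (hq : q.Prime) (hqp : q ≠ p) :
    (GaloisRepAdic.ofResidualGaloisRep X₀.rhobar).IsUnipotentOnInertiaAt q :=
  TWHyp.isUnipotentOnInertiaAt_baseChange _ (X₀.isTWResidual.unipotent q hq hqp)

/-- It ramifies at `q ≠ p` exactly when `E[p]` does. -/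
theorem isUnramifiedAt_iff {q : ℕ} (hq : q.Prime) (hqp : q ≠ p) :
    X₀.rhobar.IsUnramifiedAt q ↔ q ∉ Lifting.ramifiedPrimes W p :=
  Lifting.residualOver_isUnramifiedAt_iff W X₀.Δ_ne_zero p _ X₀.semistable X₀.ne_two hq hqp

/-- The primes of `{p} ∪ N`, `N` the ramified primes, are exactly `p` and those where `E[p]`
ramifies. -/
theorem hmin {q : ℕ} (hq : q.Prime) (hqp : q ≠ p) :
    q ∈ insert p (Lifting.ramifiedPrimes W p) ↔ ¬ X₀.rhobar.IsUnramifiedAt q :=
  Lifting.mem_insert_iff_ramified W X₀.Δ_ne_zero p _ X₀.semistable X₀.ne_two hq hqp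

theorem isUnramifiedOutside {S : Finset ℕ} (hS : insert p (Lifting.ramifiedPrimes W p) ⊆ S)
    (q : ℕ) (hq : q.Prime) (hqS : q ∉ S) :
    (GaloisRepAdic.ofResidualGaloisRep X₀.rhobar).IsUnramifiedAt q :=
  Lifting.residualOver_isUnramifiedOutside W X₀.Δ_ne_zero p _ X₀.semistable X₀.ne_two hS q hq hqS

theorem flatCondition_rhobar (hflat : (GaloisRepAdic.ofResidualGaloisRep X₀.rhobar).IsFlatAt p)
    {S : Finset ℕ} (hS : insert p (Lifting.ramifiedPrimes W p) ⊆ S) (T : Finset ℕ) :
    flatCondition O p S (GaloisRepAdic.ofResidualGaloisRep X₀.rhobar) ∧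
      ∀ q ∈ T, q.Prime → q ≠ p →
        (GaloisRepAdic.ofResidualGaloisRep X₀.rhobar).IsUnipotentOnInertiaAt q :=
  ⟨⟨X₀.detIsCyclotomic, hflat, X₀.isUnramifiedOutside hS⟩, fun _ _ hq hqp => X₀.unipotent hq hqp⟩

theorem strictCondition_rhobar
    (hstrict : (GaloisRepAdic.ofResidualGaloisRep X₀.rhobar).IsStrictOrdinaryAt p)
    {S : Finset ℕ} (hS : insert p (Lifting.ramifiedPrimes W p) ⊆ S) (T : Finset ℕ) :
    strictOrdinaryCondition O p S (GaloisRepAdic.ofResidualGaloisRep X₀.rhobar) ∧
      ∀ q ∈ T, q.Prime → q ≠ p →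
        (GaloisRepAdic.ofResidualGaloisRep X₀.rhobar).IsUnipotentOnInertiaAt q :=
  ⟨⟨X₀.detIsCyclotomic, hstrict, X₀.isUnramifiedOutside hS⟩, fun _ _ hq hqp => X₀.unipotent hq hqp⟩

variable {A : Type} [CommRing A] [IsLocalRing A]

/-- Flatness of the residual representation from a flat lift over any local ring. -/
theorem isFlatAt_of_lift [Finite (ResidueField O)] (ρ : GaloisRepAdic A)
    (φ : ResidueField O →+* ResidueField A) (e : ρ.residual.IsEquiv (X₀.rhobar.baseChangeAlong φ))
    (h : ρ.IsFlatAt p) : (GaloisRepAdic.ofResidualGaloisRep X₀.rhobar).IsFlatAt p :=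
  residual_isFlatAt_of_adic X₀.rhobar ρ φ e h

end Local

section Ring

variable [IsDomain O] [IsDiscreteValuationRing O] [IsAdicComplete (maximalIdeal O) O]
  [Finite (ResidueField O)] [Algebra (ZMod p) (ResidueField O)] (X₀ : ResidualSetup W p O)
  {A : Type} [CommRing A] [IsLocalRing A] {S : Finset ℕ}

/-- The flat deformation ring exists once some lift is flat at `p`. -/
theorem nonempty_ringData_flat (hS : insert p (Lifting.ramifiedPrimes W p) ⊆ S) (T : Finset ℕ)
    (ρ : GaloisRepAdic A) (φ : ResidueField O →+* ResidueField A)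
    (e : ρ.residual.IsEquiv (X₀.rhobar.baseChangeAlong φ)) (h : ρ.IsFlatAt p) :
    Nonempty (DeformationRingData O X₀.rhobar (fun _A _ _ _ ρ =>
      flatCondition O p S ρ ∧ ∀ q ∈ T, q.Prime → q ≠ p → ρ.IsUnipotentOnInertiaAt q)) :=
  DefCond.nonempty_ringData_flat p S T X₀.rhobar X₀.absIrr
    (X₀.flatCondition_rhobar (X₀.isFlatAt_of_lift ρ φ e h) hS T)

/-- The strictly ordinary deformation ring exists for a strictly ordinary residual
representation. -/
theorem nonempty_ringData_strict (hS : insert p (Lifting.ramifiedPrimes W p) ⊆ S) (T : Finset ℕ)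
    (hstrict : (GaloisRepAdic.ofResidualGaloisRep X₀.rhobar).IsStrictOrdinaryAt p) :
    Nonempty (DeformationRingData O X₀.rhobar (fun _A _ _ _ ρ =>
      strictOrdinaryCondition O p S ρ ∧ ∀ q ∈ T, q.Prime → q ≠ p → ρ.IsUnipotentOnInertiaAt q)) :=
  DefCond.nonempty_ringData_strict p S T X₀.rhobar X₀.ne_two X₀.absIrr
    (X₀.strictCondition_rhobar hstrict hS T)

end Ring

end ResidualSetup

end Fermat.Agent.LevelLowering.Residual
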