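import Fermat.Agent.LevelLowering.Residual.InertiaShape
import Fermat.Agent.Lifting.ResidualData
import Fermat.Agent.Lifting.FlatMult
import Fermat.Agent.LowerAtP.GeneralVector

/-!
# Irreducibility on index two subgroups for semistable curves at every odd prime

Inertia at a prime `p ≥ 5` of semistable reduction is of ordinary or of supersingular shape.
-/

set_option autoImplicit false

noncomputable section

open Polynomial WeierstrassCurve WeierstrassCurve.Affine
open Fermat.Agent.GaloisBasics (Qbar GalQ)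
open Fermat.Agent.RepTheory (matRep matRep_apply det_matRep)
open scoped WeierstrassCurve.Affine TensorProduct

namespace Fermat.Agent.LevelLowering.Residual

section Linear

variable {p : ℕ} [Fact p.Prime] (W : WeierstrassCurve ℤ) (hΔ : W.Δ ≠ 0)

/-- The residual representation as matrices. -/
abbrev residualMat : GalQ →* Matrix (Fin 2) (Fin 2) (ZMod p) :=
  matRep (TWHyp.basisOf (TWHyp.residualRep W hΔ p)) (TWHyp.residualRep W hΔ p).ρ

theorem det_residualMat_sub (σ : GalQ) (c : ZMod p) {v : (TWHyp.residualRep W hΔ p).V}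
    (hv : v ≠ 0) (h : (TWHyp.residualRep W hΔ p).ρ σ v = c • v) :
    (residualMat W hΔ σ - c • (1 : Matrix (Fin 2) (Fin 2) (ZMod p))).det = 0 := by
  set b := TWHyp.basisOf (TWHyp.residualRep W hΔ p)
  refine Matrix.exists_mulVec_eq_zero_iff.mp ⟨b.equivFun v, ?_, ?_⟩
  · simpa using hv
  · rw [Matrix.sub_mulVec, Matrix.smul_mulVec, Matrix.one_mulVec, sub_eq_zero, matRep_apply,
      Module.Basis.equivFun_apply, LinearMap.toMatrix_mulVec_repr]
    exact congrArg (fun f : _ →₀ ZMod p => (f : Fin 2 → ZMod p))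
      ((congrArg b.repr h).trans (map_smul _ _ _))

theorem residualMat_eq_one {σ : GalQ} (h : residualMat (p := p) W hΔ σ = 1) :
    (TWHyp.residualRep W hΔ p).ρ σ = 1 := by
  rw [matRep_apply, ← LinearMap.toMatrix_one (TWHyp.basisOf (TWHyp.residualRep W hΔ p))] at h
  exact (LinearMap.toMatrix _ _).injective h

end Linear

section Shape

variable {p : ℕ} [Fact p.Prime] {A : ValuationSubring Qbar} (W : WeierstrassCurve ℤ) (hΔ : W.Δ ≠ 0)

/-- Multiplicative reduction: a line with unramified quotient. -/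
theorem det_sub_one_of_dvd (hA : A.LiesOverPrime p) (hW : W.IsSemistableModel)
    (hpΔ : (p : ℤ) ∣ W.Δ) {σ : GalQ} (hσ : σ ∈ A.inertiaSubgroupIn ℚ) :
    (residualMat (p := p) W hΔ σ - 1).det = 0 := by
  obtain ⟨L, ⟨b, hb⟩, -, hI, -⟩ := (Lifting.residualRep_isStrictOrdinaryAt W hΔ p hW hpΔ).2 A hA
  set T := (GaloisRepAdic.ofResidualGaloisRep (TWHyp.residualRep W hΔ p)).ρ σ
  have h : ∀ v, T v - v ∈ L := fun v => hI σ hσ v
  rw [hb] at h
  obtain ⟨x₀, hx₀⟩ := Submodule.mem_span_singleton.mp (h (b 0))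
  obtain ⟨x₁, hx₁⟩ := Submodule.mem_span_singleton.mp (h (b 1))
  have hdet : LinearMap.det (T - 1) = 0 := by
    rw [← LinearMap.det_toMatrix b, Matrix.det_fin_two]
    simp [LinearMap.toMatrix_apply, ← hx₀, ← hx₁]
  have h2 : LinearMap.det ((TWHyp.residualRep W hΔ p).ρ σ - 1) = 0 := hdet
  rw [← LinearMap.det_toMatrix (TWHyp.basisOf (TWHyp.residualRep W hΔ p)), map_sub,
    LinearMap.toMatrix_one] at h2
  exact h2

theorem det_residualMat (hW : W.IsSemistableModel) (hirr : W.ModRepIsIrreducible p) (σ : GalQ)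
    (n : ℕ) (hn : ∀ μ : Qbar, μ ^ p = 1 → σ μ = μ ^ n) :
    (residualMat (p := p) W hΔ σ).det = (n : ZMod p) :=
  (TWHyp.isTWRep_matRep (TWHyp.isTWResidual_residualRep W hΔ hW hirr) _).det_cyclotomic σ n hn

open Classical in
/-- Good ordinary reduction: a fixed vector or an eigenvector for the cyclotomic character. -/
theorem det_sub_one_of_ordinary (hA : A.LiesOverPrime p) (hW : W.IsSemistableModel)
    (hirr : W.ModRepIsIrreducible p) (hp2 : p ≠ 2) (hgood : ¬ (p : ℤ) ∣ W.Δ)
    (ha : ¬ (p : ℤ) ∣ W.apOfModel p) {σ : GalQ} (hσ : σ ∈ A.inertiaSubgroupIn ℚ) :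
    (residualMat (p := p) W hΔ σ - 1).det = 0 := by
  have hp : p.Prime := Fact.out
  have : NeZero p := ⟨hp.ne_zero⟩
  have S := Lifting.localSetting_fixedInertia hA hp
  obtain ⟨ζ, hζ⟩ := HasEnoughRootsOfUnity.exists_primitiveRoot Qbar p
  obtain ⟨P₀, x, k, η, hP₀, hx, hne, hactP, hactx, -, -⟩ :=
    S.ordinary_torsion_kummer W hζ hp2 hgood ha
  obtain ⟨τ, rfl⟩ := Lifting.exists_lift_inertia hσ
  have hmem : ∀ Q : (LowerAtP.curveOver Qbar W).Point, p • Q = 0 →
      Q ∈ Submodule.torsionBy ℤ (LowerAtP.curveOver Qbar W).Point p := fun Q hQ => by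
    rw [Submodule.mem_torsionBy_iff, natCast_zsmul, hQ]
  let g : (TWHyp.residualRep W hΔ p).V := ⟨P₀, hmem P₀ hP₀⟩
  let y : (TWHyp.residualRep W hΔ p).V := ⟨x, hmem x hx⟩
  by_cases hg : g = 0
  · have hy : y ≠ 0 := fun e => hne 0 (by rw [zero_nsmul]; exact congrArg Subtype.val e)
    have hP : P₀ = 0 := congrArg Subtype.val hg
    have h := det_residualMat_sub W hΔ (τ.restrictScalars ℚ) 1 hy (Subtype.ext (by
      rw [one_smul]
      show LowerAtP.actPoint W τ x = x
      rw [hactx, hP, nsmul_zero, add_zero]))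
    rwa [one_smul] at h
  · obtain ⟨n, hn0, hn⟩ := S.exists_exponent hζ τ
    have hμ : ∀ μ : Qbar, μ ^ p = 1 → (τ.restrictScalars ℚ) μ = μ ^ n.val := fun μ hμ => by
      obtain ⟨e, -, rfl⟩ := hζ.eq_pow_of_pow_eq_one hμ
      show τ (ζ ^ e) = _
      rw [map_pow, hn, ← pow_mul, ← pow_mul, mul_comm]
    have hd := det_residualMat W hΔ hW hirr _ _ hμ
    rw [ZMod.natCast_zmod_val] at hd
    have h := det_residualMat_sub W hΔ (τ.restrictScalars ℚ) n hg (by
      rw [← ZMod.natCast_zmod_val n, Nat.cast_smul_eq_nsmul]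
      exact Subtype.ext (hactP τ _ hn))
    set M := residualMat (p := p) W hΔ (τ.restrictScalars ℚ)
    rw [Matrix.det_fin_two] at hd h ⊢
    simp at h ⊢
    refine mul_left_cancel₀ hn0 ?_
    rw [mul_zero]
    linear_combination h + (n - 1) * hd

open Classical in
/-- Inertia at a semistable `p` is of ordinary or supersingular shape. -/
theorem inertiaShape (hA : A.LiesOverPrime p) (hW : W.IsSemistableModel)
    (hirr : W.ModRepIsIrreducible p) (hp2 : p ≠ 2) :
    InertiaShape A (residualMat (p := p) W hΔ) := by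
  by_cases hgood : (p : ℤ) ∣ W.Δ
  · exact Or.inl fun σ hσ => det_sub_one_of_dvd W hΔ hA hW hgood hσ
  by_cases ha : (p : ℤ) ∣ W.apOfModel p
  · have S := Lifting.localSetting_fixedInertia hA (Fact.out : p.Prime)
    obtain ⟨v, hv⟩ : ∃ v : (TWHyp.residualRep W hΔ p).V, v ≠ 0 :=
      ⟨TWHyp.basisOf _ 0, Module.Basis.ne_zero _ _⟩
    have hv0 : (v.1 : (LowerAtP.curveOver Qbar W).Point) ≠ 0 := fun e => hv (Subtype.ext e)
    have hvp : p • (v.1 : (LowerAtP.curveOver Qbar W).Point) = 0 := by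
      rw [← natCast_zsmul]; exact (Submodule.mem_torsionBy_iff _ _).mp v.2
    obtain ⟨hker, hval⟩ := S.val_zParam_supersingular W hp2 hgood ha hv0 hvp
    refine Or.inr ⟨_, (LowerAtP.integralCoeffs_curveOver W).zParam_ne_zero hker hv0, hval,
      fun σ hσ h => ?_⟩
    obtain ⟨τ, rfl⟩ := Lifting.exists_lift_inertia hσ
    have e : LowerAtP.actPoint W τ v.1 = v.1 :=
      congrArg Subtype.val (LinearMap.congr_fun (residualMat_eq_one W hΔ h) v)
    show τ _ = _
    rw [← LowerAtP.zParam_actPoint, e]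
  · exact Or.inl fun σ hσ => det_sub_one_of_ordinary W hΔ hA hW hirr hp2 hgood ha hσ

end Shape

/-- The Taylor–Wiles hypothesis for semistable curves at every odd prime: no line of `E[p] ⊗ K`
is stable under an index two subgroup, for any field `K`. -/
theorem eq_bot_or_top_of_index_two (W : WeierstrassCurve ℤ) (hΔ : W.Δ ≠ 0) (p : ℕ) [Fact p.Prime]
    (hp2 : p ≠ 2) (hW : W.IsSemistableModel) (hirr : W.ModRepIsIrreducible p) (k : Type) [Field k]
    [Algebra (ZMod p) k] (K : Type) [Field K] [Algebra k K] (G : Subgroup GalQ) (hG : G.index = 2)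
    (V : Submodule K ((Lifting.residualOver W hΔ p k).baseChange K).V)
    (hV : ∀ σ ∈ G, ∀ x ∈ V, ((Lifting.residualOver W hΔ p k).baseChange K).ρ σ x ∈ V) :
    V = ⊥ ∨ V = ⊤ := by
  have h := TWHyp.isTWResidual_residualRep W hΔ hW hirr
  by_cases h3 : p = 3
  · exact TWHyp.eq_bot_or_top_of_index_two k (Or.inl h3) h K G hG V hV
  have hp : p.Prime := Fact.out
  have h5 : 5 ≤ p := by
    have := hp.two_le
    have h4 : p ≠ 4 := fun e => by rw [e] at hp; norm_num at hp
    omega
  obtain ⟨A, hA⟩ := GaloisBasics.exists_liesOverPrime hp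
  refine TWHyp.stable_eq_bot_or_top (p := p) (r := residualMat W hΔ)
    (Algebra.TensorProduct.basis K (Algebra.TensorProduct.basis k (TWHyp.basisOf _))) _
    ((algebraMap k K).comp (algebraMap (ZMod p) k)) G (fun σ => ?_)
    (fun v hv => exists_not_eig_of_inertiaShape h5 (TWHyp.isTWRep_matRep h _) hA
      (inertiaShape W hΔ hA hW hirr hp2)
      (fun x hx hfix => FlatBound.exists_zpow_of_inertia_fixed hA hp hx hfix)
      (fun σ hσ x => LocalInertia.valuation_apply
        (LocalInertia.mem_inertiaSubgroupIn_iff.mp hσ).1 x) _ G hG hv) V hV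
  change LinearMap.toMatrix _ _ ((((TWHyp.residualRep W hΔ p).ρ σ).baseChange k).baseChange K) = _
  rw [LinearMap.toMatrix_baseChange, LinearMap.toMatrix_baseChange, Matrix.map_map, matRep_apply]
  rfl

end Fermat.Agent.LevelLowering.Residual

end
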