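import Fermat.Agent.TWHyp.IndexTwo

/-!
# Index two subgroups and the shape of inertia at `p`

For `p ≥ 5` an odd irreducible representation, unipotent away from `p`, is irreducible on every
index two subgroup as soon as inertia at one place above `p` is either of ordinary shape (every
element has eigenvalue one) or moves some element of size `|p| ^ (1 / (p² - 1))` whenever it moves
a given vector.
-/

set_option autoImplicit false

noncomputable section

open Matrix
open scoped Pointwise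
open Fermat.Agent.GaloisBasics
open Fermat.Agent.TWHyp (IsTWRep Eig BadPair NoOrderP det2 two_ne_zero_of_ne_two)

namespace Fermat.Agent.LevelLowering.Residual

variable {p : ℕ} [Fact p.Prime]

/-- The two shapes of inertia at a place above `p`. -/
def InertiaShape (A : ValuationSubring Qbar) (r : GalQ →* Matrix (Fin 2) (Fin 2) (ZMod p)) : Prop :=
  (∀ σ ∈ A.inertiaSubgroupIn ℚ, (r σ - 1).det = 0) ∨
    ∃ z : Qbar, z ≠ 0 ∧ A.valuation z ^ (p ^ 2 - 1) = A.valuation (p : Qbar) ∧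
      ∀ σ ∈ A.inertiaSubgroupIn ℚ, r σ = 1 → σ z = z

/-- An element outside `G` has trace zero. -/
theorem trace_eq_zero_of_not_mem {K : Type*} [Field K] {φ : ZMod p →+* K} {G : Subgroup GalQ}
    {v v' : Fin 2 → K} {r : GalQ →* Matrix (Fin 2) (Fin 2) (ZMod p)} (hb : BadPair φ r G v v')
    {σ : GalQ} (hσ : σ ∉ G) : (r σ).trace = 0 := by
  obtain ⟨⟨b, hbv⟩, b', hbv'⟩ := hb.swap σ hσ
  have e0 := congrFun hbv 0
  have e1 := congrFun hbv 1
  have e0' := congrFun hbv' 0
  have e1' := congrFun hbv' 1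
  simp only [mulVec, dotProduct, Fin.sum_univ_two, map_apply, Pi.smul_apply, smul_eq_mul]
    at e0 e1 e0' e1'
  apply φ.injective
  rw [trace_fin_two, map_add, map_zero]
  refine mul_right_cancel₀ hb.indep ?_
  rw [zero_mul, det2]
  linear_combination v' 1 * e0 - v 1 * e0' + v 0 * e1' - v' 0 * e1

/-- No element generating the image of inertia at `p` has trace zero. -/
theorem InertiaShape.trace_ne_zero {A : ValuationSubring Qbar}
    {r : GalQ →* Matrix (Fin 2) (Fin 2) (ZMod p)} (hs : InertiaShape A r) (h5 : 5 ≤ p)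
    (h : IsTWRep p r) (hA : A.LiesOverPrime p)
    (hbase : ∀ x : Qbar, x ≠ 0 → (∀ σ ∈ A.inertiaSubgroupIn ℚ, σ x = x) →
      ∃ m : ℤ, A.valuation x = A.valuation (p : Qbar) ^ m)
    (hiso : ∀ σ ∈ A.inertiaSubgroupIn ℚ, ∀ x : Qbar, A.valuation (σ x) = A.valuation x)
    {σ₀ : GalQ} (hσ₀ : σ₀ ∈ A.inertiaSubgroupIn ℚ)
    (hgen : ∀ σ ∈ A.inertiaSubgroupIn ℚ, ∃ j : ℕ, r σ = r σ₀ ^ j) : (r σ₀).trace ≠ 0 := by
  intro ht
  have hp : p.Prime := Fact.out
  rw [trace_fin_two] at ht
  rcases hs with hord | ⟨z, hz0, hval, hfix⟩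
  · have hd : (r σ₀).det = -1 := by
      have := hord σ₀ hσ₀
      rw [det_fin_two] at this
      simp at this
      rw [det_fin_two]
      linear_combination this + ht
    obtain ⟨τ, hτ, hτ2⟩ := LocalInertia.exists_inertia_pow_on_rootsOfUnity hA hp 1
      (a := 2) ((Nat.coprime_primes Nat.prime_two hp).mpr (by omega))
    have hdτ : (r τ).det = 2 := by
      simpa using h.det_cyclotomic τ 2 fun μ hμ => hτ2 μ (by simpa using hμ)
    obtain ⟨j, hj⟩ := hgen τ hτ
    rw [hj, det_pow, hd] at hdτ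
    have hne : ∀ n : ℕ, 0 < n → n ≤ 3 → ((n : ℕ) : ZMod p) ≠ 0 := fun n hn hn3 e => by
      have := Nat.le_of_dvd hn ((ZMod.natCast_eq_zero_iff _ _).mp e)
      omega
    rcases neg_one_pow_eq_or (ZMod p) j with e | e <;> rw [e] at hdτ
    · exact hne 1 one_pos (by omega) (by push_cast; linear_combination -hdτ)
    · exact hne 3 three_pos le_rfl (by push_cast; linear_combination -hdτ)
  · obtain ⟨n, hn⟩ : ∃ n, p = n + 1 := ⟨p - 1, by omega⟩
    have hsq : r σ₀ * r σ₀ = (-(r σ₀).det) • (1 : Matrix (Fin 2) (Fin 2) (ZMod p)) := by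
      rw [det_fin_two]
      ext i j
      fin_cases i <;> fin_cases j <;> simp [mul_apply, Fin.sum_univ_two]
      · linear_combination r σ₀ 0 0 * ht
      · linear_combination r σ₀ 0 1 * ht
      · linear_combination r σ₀ 1 0 * ht
      · linear_combination r σ₀ 1 1 * ht
    have hd0 : (r σ₀).det ≠ 0 := fun e => by
      have h1 : r σ₀ * r σ₀⁻¹ = 1 := by rw [← map_mul, mul_inv_cancel, map_one]
      have := congrArg Matrix.det h1
      rw [det_mul, e, zero_mul, det_one] at this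
      exact zero_ne_one this
    set N := 2 * n with hN
    have hN0 : 0 < N := by omega
    have hrN : r σ₀ ^ N = 1 := by
      rw [hN, pow_mul, sq, hsq, smul_pow, one_pow, show n = p - 1 by omega,
        ZMod.pow_card_sub_one_eq_one (neg_ne_zero.mpr hd0), one_smul]
    have hrmod : ∀ i, r σ₀ ^ i = r σ₀ ^ (i % N) := fun i => by
      conv_lhs => rw [← Nat.mod_add_div i N, pow_add, pow_mul, hrN, one_pow, mul_one]
    have hsame : ∀ σ ∈ A.inertiaSubgroupIn ℚ, ∀ τ ∈ A.inertiaSubgroupIn ℚ, r σ = r τ →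
        σ z = τ z := fun σ hσ τ hτ e => by
      have h1 := hfix (τ⁻¹ * σ) (mul_mem (inv_mem hτ) hσ) (by
        rw [map_mul, e, ← map_mul, inv_mul_cancel, map_one])
      rw [AlgEquiv.mul_apply] at h1
      conv_rhs => rw [← h1]
      exact (τ.apply_symm_apply (σ z)).symm
    set x : Qbar := ∏ j : Fin N, (σ₀ ^ (j : ℕ)) z with hx
    have hx0 : x ≠ 0 := Finset.prod_ne_zero_iff.mpr fun j _ => (_root_.map_ne_zero _).mpr hz0
    have hxfix : ∀ σ ∈ A.inertiaSubgroupIn ℚ, σ x = x := by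
      intro σ hσ
      obtain ⟨i, hi⟩ := hgen σ hσ
      have : NeZero N := ⟨hN0.ne'⟩
      rw [hx, map_prod]
      refine Fintype.prod_equiv (Equiv.addLeft (⟨i % N, Nat.mod_lt _ hN0⟩ : Fin N)) _ _ fun j => ?_
      rw [← AlgEquiv.mul_apply]
      refine hsame _ (mul_mem hσ (pow_mem hσ₀ _)) _ (pow_mem hσ₀ _) ?_
      rw [map_mul, hi, map_pow, map_pow, ← pow_add, hrmod (i + j)]
      congr 1
      rw [Equiv.coe_addLeft, Fin.val_add, Fin.val_mk, Nat.mod_add_mod]
    obtain ⟨m, hm⟩ := hbase x hx0 hxfix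
    have hvx : A.valuation x = A.valuation z ^ N := by
      rw [hx, map_prod, Finset.prod_congr rfl fun j _ => hiso _ (pow_mem hσ₀ _) z, Finset.prod_const,
        Finset.card_univ, Fintype.card_fin]
    rw [hvx] at hm
    have h1 : A.valuation (p : Qbar) ^ (N : ℤ) = A.valuation (p : Qbar) ^ (m * (p ^ 2 - 1 : ℕ)) := by
      rw [_root_.zpow_mul, ← hm, zpow_natCast, zpow_natCast, ← pow_mul, mul_comm N, pow_mul (A.valuation z), hval]
    have hvp : 0 < A.valuation (p : Qbar) :=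
      zero_lt_iff.mpr ((Valuation.ne_zero_iff _).mpr (Nat.cast_ne_zero.mpr hp.ne_zero))
    have h2 := zpow_right_injective₀ hvp (A.mem_nonunits_iff.mp hA).ne h1
    have hN' : (p ^ 2 - 1) ∣ N :=
      Int.natCast_dvd_natCast.mp ⟨m, by rw [h2, mul_comm]⟩
    have := Nat.le_of_dvd hN0 hN'
    have hsq' : p ^ 2 - 1 = n * (n + 2) := by
      rw [hn, show (n + 1) ^ 2 = n * (n + 2) + 1 by ring, Nat.add_sub_cancel]
    rw [hsq', hN] at this
    nlinarith

variable {r : GalQ →* Matrix (Fin 2) (Fin 2) (ZMod p)} {K : Type*} [Field K]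

/-- For `p ≥ 5` no line is stable under an index two subgroup. -/
theorem exists_not_eig_of_inertiaShape (h5 : 5 ≤ p) (h : IsTWRep p r)
    {A : ValuationSubring Qbar} (hA : A.LiesOverPrime p) (hs : InertiaShape A r)
    (hbase : ∀ x : Qbar, x ≠ 0 → (∀ σ ∈ A.inertiaSubgroupIn ℚ, σ x = x) →
      ∃ m : ℤ, A.valuation x = A.valuation (p : Qbar) ^ m)
    (hiso : ∀ σ ∈ A.inertiaSubgroupIn ℚ, ∀ x : Qbar, A.valuation (σ x) = A.valuation x)
    (φ : ZMod p →+* K) (G : Subgroup GalQ) (hG : G.index = 2) {v : Fin 2 → K} (hv : v ≠ 0) :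
    ∃ g ∈ G, ¬ Eig ((r g).map φ) v := by
  by_contra hcon
  push Not at hcon
  have hp : p.Prime := Fact.out
  have h2 : (2 : ZMod p) ≠ 0 := two_ne_zero_of_ne_two (by omega)
  obtain ⟨hcc, hdc⟩ := h.conj_sq
  have habs := TWHyp.abs_irreducible φ h2 r hcc hdc h.irreducible
  obtain ⟨v', hb⟩ := BadPair.exists_of_eig φ r hG (habs (v := ·)) hv hcon
  have hno : NoOrderP p r := fun σ hσ => hb.pow_char h2 p hσ
  obtain ⟨L, hL, hLr⟩ := h.finiteLevel
  obtain ⟨σ₀, hσ₀I, hgen, -⟩ := LocalInertia.exists_inertia_image_generator hA hp r.toHomUnits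
    ⟨L, hL, fun σ hσ => Units.ext (hLr σ hσ)⟩ fun σ _ => TWHyp.orderOf_coprime hno σ
  have hgen' : ∀ σ ∈ A.inertiaSubgroupIn ℚ, ∃ j : ℕ, r σ = r σ₀ ^ j := fun σ hσ => by
    obtain ⟨j, hj⟩ := hgen σ hσ
    have e := congrArg Units.val hj
    exact ⟨j, e.trans (Units.val_pow_eq_pow_val _ _)⟩
  by_cases hσ₀ : σ₀ ∈ G
  · have hN : G.Normal := Subgroup.normal_of_index_eq_two hG
    have hker : ∀ g, r g = 1 → g ∈ G := fun g hg => hb.ker_le (habs (v := ·)) hg
    have h0 : A.inertiaSubgroupIn ℚ ≤ G := by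
      intro σ hσ
      obtain ⟨j, hj⟩ := hgen' σ hσ
      have hmem : (σ₀ ^ j)⁻¹ * σ ∈ G := hker _ (by
        rw [map_mul, hj, ← map_pow, ← map_mul, inv_mul_cancel, map_one])
      simpa using G.mul_mem (G.pow_mem hσ₀ j) hmem
    have htop : G = ⊤ := by
      refine eq_top_of_inertia_le G L (fun σ hσ => hker σ (hLr σ ?_)) fun q hq B hB σ hσ => ?_
      · exact (IntermediateField.mem_fixingSubgroup_iff L σ).mp hσ
      · by_cases hqp : q = p
        · subst hqp
          obtain ⟨g, rfl⟩ := exists_smul_eq hA hB hq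
          have hmem : g⁻¹ * σ * g ∈ A.inertiaSubgroupIn ℚ := by
            rw [← inertiaSubgroupIn_smul_iff (g⁻¹ * σ * g) g]
            simpa [mul_assoc] using hσ
          simpa [mul_assoc] using hN.conj_mem _ (h0 hmem) g
        · exact hker σ (hb.eq_one_of_sq h2 (h.unipotent q hq hqp B hB σ hσ))
    rw [htop, Subgroup.index_top] at hG
    omega
  · exact hs.trace_ne_zero h5 h hA hbase hiso hσ₀I hgen' (trace_eq_zero_of_not_mem hb hσ₀)

end Fermat.Agent.LevelLowering.Residual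

end
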